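import Mathlib
import Fermat.Prelude.Def_EllipticCurve_FrobeniusTrace

set_option autoImplicit false

noncomputable section

namespace Fermat.Agent.S54

open Polynomial
open scoped Pointwise

/-- Integrality step: if `a ^ k * d + ∑_{i<k} c i * a ^ i = 0` with `d` and all `c i` integral
over `ℤ`, then `a * d` is integral over `ℤ`. -/
theorem isIntegral_mul_of_relation {L : Type*} [Field L] (a d : L) (k : ℕ) (c : ℕ → L)
    (hd : IsIntegral ℤ d) (hc : ∀ i, IsIntegral ℤ (c i))
    (h : a ^ k * d + ∑ i ∈ Finset.range k, c i * a ^ i = 0) : IsIntegral ℤ (a * d) := by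
  by_cases hd0 : d = 0
  · rw [hd0, mul_zero]; exact isIntegral_zero
  let B := integralClosure ℤ L
  let d' : B := ⟨d, hd⟩
  let c' : ℕ → B := fun i => ⟨c i, hc i⟩
  have hd'0 : d' ≠ 0 := fun h0 => hd0 (congrArg Subtype.val h0)
  let q : B[X] := ∑ i ∈ Finset.range k, C (c' i) * X ^ i
  let p : B[X] := C d' * X ^ k + q
  have hqdeg : q.degree < (k : WithBot ℕ) :=
    (Polynomial.degree_sum_le _ _).trans_lt ((Finset.sup_lt_iff (WithBot.bot_lt_coe k)).2
      fun i hi => (Polynomial.degree_C_mul_X_pow_le i _).trans_lt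
        (WithBot.coe_lt_coe.2 (Finset.mem_range.1 hi)))
  have hlead : p.leadingCoeff = d' := by
    have h1 : (C d' * X ^ k : B[X]).degree = k := Polynomial.degree_C_mul_X_pow k hd'0
    have h2 : q.degree < (C d' * X ^ k : B[X]).degree := by rw [h1]; exact hqdeg
    show (C d' * X ^ k + q).leadingCoeff = d'
    rw [add_comm, Polynomial.leadingCoeff_add_of_degree_lt h2, Polynomial.leadingCoeff_C_mul_X_pow]
  have hroot : aeval a p = 0 := by
    show aeval a (C d' * X ^ k + ∑ i ∈ Finset.range k, C (c' i) * X ^ i) = 0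
    simp only [map_add, map_mul, map_sum, map_pow, aeval_C, aeval_X]
    rw [← h]
    congr 1
    exact mul_comm _ _
  have hint : IsIntegral B (p.leadingCoeff • a) := isIntegral_leadingCoeff_smul p a hroot
  rw [hlead] at hint
  have h3 : d' • a = a * d := by
    show d * a = a * d
    exact mul_comm _ _
  rw [h3] at hint
  exact isIntegral_trans _ hint

/-- Horner-type descent: an element `a` of a valuation subring `V` which satisfies a polynomial
relation with integral coefficients, not all in the maximal ideal of `V`, can be written with an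
integral denominator which is a unit of `V`. -/
theorem exists_denominator_of_relation {L : Type*} [Field L] (V : ValuationSubring L) (a : L)
    (ha : a ∈ V) :
    ∀ (m : ℕ) (b : ℕ → L), (∀ i, IsIntegral ℤ (b i)) →
      ∑ i ∈ Finset.range (m + 1), b i * a ^ i = 0 → (∃ i, i ≤ m ∧ b i ∉ V.nonunits) →
      ∃ s : L, IsIntegral ℤ s ∧ s ∉ V.nonunits ∧ IsIntegral ℤ (a * s) := by
  intro m
  induction m with
  | zero =>
    intro b _ hsum hex
    exfalso
    obtain ⟨i, hi, hbi⟩ := hex
    have hi0 : i = 0 := Nat.le_zero.mp hi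
    subst hi0
    apply hbi
    have h0 : b 0 = 0 := by simpa using hsum
    rw [h0]
    exact V.nonunits.zero_mem
  | succ m ih =>
    intro b hb hsum hex
    have hrel : a ^ (m + 1) * b (m + 1) + ∑ i ∈ Finset.range (m + 1), b i * a ^ i = 0 := by
      rw [Finset.sum_range_succ] at hsum
      rw [← hsum]
      ring
    have hy : IsIntegral ℤ (a * b (m + 1)) :=
      isIntegral_mul_of_relation a (b (m + 1)) (m + 1) b (hb _) hb hrel
    by_cases hbm : b (m + 1) ∈ V.nonunits
    · -- absorb the top coefficient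
      have hyV : a * b (m + 1) ∈ V.nonunits := by
        rw [ValuationSubring.mem_nonunits_iff] at hbm ⊢
        rw [map_mul]
        have ha1 : V.valuation a ≤ 1 := (V.valuation_le_one_iff a).2 ha
        calc V.valuation a * V.valuation (b (m + 1)) ≤ 1 * V.valuation (b (m + 1)) :=
              mul_le_mul_left ha1 _
          _ = V.valuation (b (m + 1)) := one_mul _
          _ < 1 := hbm
      let b' : ℕ → L := Function.update b m (b m + a * b (m + 1))
      have hb' : ∀ i, IsIntegral ℤ (b' i) := by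
        intro i
        by_cases him : i = m
        · subst him
          simp only [b', Function.update_self]
          exact (hb i).add hy
        · simp only [b', Function.update_of_ne him]
          exact hb i
      have hsum' : ∑ i ∈ Finset.range (m + 1), b' i * a ^ i = 0 := by
        rw [Finset.sum_range_succ] at hsum ⊢
        rw [Finset.sum_range_succ] at hsum
        have h1 : ∑ i ∈ Finset.range m, b' i * a ^ i = ∑ i ∈ Finset.range m, b i * a ^ i := by
          apply Finset.sum_congr rfl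
          intro i hi
          have him : i ≠ m := (Finset.mem_range.1 hi).ne
          simp only [b', Function.update_of_ne him]
        rw [h1]
        simp only [b', Function.update_self]
        rw [← hsum]
        ring
      have hex' : ∃ i, i ≤ m ∧ b' i ∉ V.nonunits := by
        obtain ⟨i, hi, hbi⟩ := hex
        have hi1 : i ≠ m + 1 := by
          rintro rfl
          exact hbi hbm
        by_cases him : i = m
        · subst him
          refine ⟨i, le_rfl, ?_⟩
          simp only [b', Function.update_self]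
          intro hmem
          apply hbi
          have := V.nonunits.sub_mem hmem hyV
          simpa using this
        · refine ⟨i, by omega, ?_⟩
          simp only [b', Function.update_of_ne him]
          exact hbi
      exact ih b' hb' hsum' hex'
    · exact ⟨b (m + 1), hb _, hbm, hy⟩

/-- An integer prime to `ℓ` is not in the maximal ideal of a valuation subring containing `ℓ`
in its maximal ideal. -/
theorem intCast_not_mem_nonunits {L : Type*} [Field L] (V : ValuationSubring L) (ℓ : ℕ)
    (hℓ : ℓ.Prime) (hV : (ℓ : L) ∈ V.nonunits) (c : ℤ) (hc : ¬ (ℓ : ℤ) ∣ c) :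
    (c : L) ∉ V.nonunits := by
  intro hmem
  have hcop : IsCoprime (ℓ : ℤ) c :=
    (Nat.prime_iff_prime_int.mp hℓ).coprime_iff_not_dvd.2 hc
  obtain ⟨u, v, huv⟩ := hcop
  have h1 : ((u : L) * (ℓ : L) + (v : L) * (c : L)) = 1 := by
    have := congrArg (Int.cast : ℤ → L) huv
    push_cast at this
    exact this
  have h2 : (1 : L) ∈ V.nonunits := by
    rw [← h1]
    refine V.nonunits.add_mem ?_ ?_
    · rw [ValuationSubring.mem_nonunits_iff] at hV ⊢
      rw [map_mul]
      have hu : V.valuation (u : L) ≤ 1 := (V.valuation_le_one_iff _).2 (intCast_mem V u)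
      calc V.valuation (u : L) * V.valuation (ℓ : L) ≤ 1 * V.valuation (ℓ : L) :=
            mul_le_mul_left hu _
        _ = V.valuation (ℓ : L) := one_mul _
        _ < 1 := hV
    · rw [ValuationSubring.mem_nonunits_iff] at hmem ⊢
      rw [map_mul]
      have hu : V.valuation (v : L) ≤ 1 := (V.valuation_le_one_iff _).2 (intCast_mem V v)
      calc V.valuation (v : L) * V.valuation (c : L) ≤ 1 * V.valuation (c : L) :=
            mul_le_mul_left hu _
        _ = V.valuation (c : L) := one_mul _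
        _ < 1 := hmem
  rw [ValuationSubring.mem_nonunits_iff, map_one] at h2
  exact lt_irrefl _ h2

/-- Every element of a valuation subring `V` (with a rational prime `ℓ` in its maximal ideal) of
a characteristic zero field, which is algebraic over `ℤ`, has an integral denominator which is
a unit of `V`. -/
theorem exists_denominator {L : Type*} [Field L] [CharZero L] (V : ValuationSubring L) (ℓ : ℕ)
    (hℓ : ℓ.Prime) (hV : (ℓ : L) ∈ V.nonunits) (a : L) (ha : a ∈ V) (halg : IsAlgebraic ℤ a) :
    ∃ s : L, IsIntegral ℤ s ∧ s ∉ V.nonunits ∧ IsIntegral ℤ (a * s) := by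
  obtain ⟨f, hf0, hfa⟩ := halg
  have hg : aeval a f.primPart = 0 := Polynomial.aeval_primPart_eq_zero hf0 hfa
  have hprim : f.primPart.IsPrimitive := f.isPrimitive_primPart
  set g := f.primPart with hgdef
  refine exists_denominator_of_relation V a ha g.natDegree (fun i => ((g.coeff i : ℤ) : L))
    (fun i => isIntegral_algebraMap (R := ℤ) (A := L) (x := g.coeff i)) ?_ ?_
  · rw [Polynomial.aeval_eq_sum_range] at hg
    rw [← hg]
    apply Finset.sum_congr rfl
    intro i _
    rw [zsmul_eq_mul]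
  · by_contra hcon
    push Not at hcon
    have hdvd : ∀ i, (ℓ : ℤ) ∣ g.coeff i := by
      intro i
      by_contra hndvd
      by_cases hi : i ≤ g.natDegree
      · exact intCast_not_mem_nonunits V ℓ hℓ hV _ hndvd (hcon i hi)
      · apply hndvd
        rw [Polynomial.coeff_eq_zero_of_natDegree_lt (not_le.mp hi)]
        exact dvd_zero _
    have hC : C (ℓ : ℤ) ∣ g := (Polynomial.C_dvd_iff_dvd_coeff _ _).2 hdvd
    have hunit : IsUnit (ℓ : ℤ) := hprim _ hC
    exact (Nat.prime_iff_prime_int.mp hℓ).not_isUnit hunit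

theorem mul_mem_nonunits {L : Type*} [Field L] (V : ValuationSubring L) {x y : L}
    (hx : x ∈ V) (hy : y ∈ V.nonunits) : x * y ∈ V.nonunits := by
  rw [ValuationSubring.mem_nonunits_iff] at hy ⊢
  rw [map_mul]
  have hx1 : V.valuation x ≤ 1 := (V.valuation_le_one_iff x).2 hx
  calc V.valuation x * V.valuation y ≤ 1 * V.valuation y := mul_le_mul_left hx1 _
    _ = V.valuation y := one_mul _
    _ < 1 := hy

theorem valuation_eq_one_of_mem {L : Type*} [Field L] (V : ValuationSubring L) {x : L}
    (hx : x ∈ V) (hx' : x ∉ V.nonunits) : V.valuation x = 1 := by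
  have hx1 : V.valuation x ≤ 1 := (V.valuation_le_one_iff x).2 hx
  rw [ValuationSubring.mem_nonunits_iff] at hx'
  exact le_antisymm hx1 (not_lt.mp hx')

theorem algebraRat_eq : (DivisionRing.toRatAlgebra : Algebra ℚ (AlgebraicClosure ℚ)) =
    AlgebraicClosure.instAlgebra ℚ := Subsingleton.elim _ _

instance isAlgClosure_rat : IsAlgClosure ℚ (AlgebraicClosure ℚ) := by
  rw [algebraRat_eq]; infer_instance

/-- Existence of Frobenius elements: for every prime `ℓ` there is a valuation subring of
`AlgebraicClosure ℚ` over `ℓ` and an arithmetic Frobenius element for it. -/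
theorem exists_frobenius (ℓ : ℕ) (hℓ : ℓ.Prime) :
    ∃ (A : ValuationSubring (AlgebraicClosure ℚ))
      (σ : AlgebraicClosure ℚ ≃ₐ[ℚ] AlgebraicClosure ℚ),
      A.LiesOverPrime ℓ ∧ A.IsFrobeniusAt σ ℓ := by
  classical
  let L := AlgebraicClosure ℚ
  let G := L ≃ₐ[ℚ] L
  let B := integralClosure ℤ L
  let P : Ideal ℤ := Ideal.span {(ℓ : ℤ)}
  have hPmax : P.IsMaximal :=
    PrincipalIdealRing.isMaximal_of_irreducible (Nat.prime_iff_prime_int.mp hℓ).irreducible
  obtain ⟨Q, hQmax, hQP⟩ := Ideal.exists_maximal_ideal_liesOver_of_isIntegral (S := B) P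
  let _ : TopologicalSpace B := ⊥
  have : DiscreteTopology B := ⟨rfl⟩
  have : ContinuousSMul G B := by
    rw [continuousSMul_iff_stabilizer_isOpen]
    intro b
    have h1 := stabilizer_isOpen_of_isIntegral (K := ℚ) (L := L) (b : L)
    convert h1 using 1
    ext g
    rw [SetLike.mem_coe, SetLike.mem_coe, MulAction.mem_stabilizer_iff,
      MulAction.mem_stabilizer_iff, Subtype.ext_iff]
    rfl
  have : Algebra.IsInvariant ℤ B G := ⟨fun b hb => by
    have h1 : (b : L) ∈ Set.range (algebraMap ℚ L) :=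
      (InfiniteGalois.mem_range_algebraMap_iff_fixed (b : L)).2
        fun g => congrArg Subtype.val (hb g)
    obtain ⟨q, hq⟩ := h1
    have h2 : IsIntegral ℤ q := by
      have h3 : IsIntegral ℤ (algebraMap ℚ L q) := hq ▸ b.2
      exact (isIntegral_algebraMap_iff (algebraMap ℚ L).injective).1 h3
    obtain ⟨n, hn⟩ := IsIntegrallyClosed.algebraMap_eq_of_integral h2
    refine ⟨n, Subtype.ext ?_⟩
    rw [← hq, ← hn]
    simp⟩
  have hsurj := Ideal.Quotient.stabilizerHom_surjective_of_profinite (G := G) P Q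
  -- `ℓ` lies in `Q`
  have hℓQ : algebraMap ℤ B (ℓ : ℤ) ∈ Q := by
    have h1 : (ℓ : ℤ) ∈ Q.under ℤ := by
      rw [← hQP.over]
      exact Ideal.mem_span_singleton_self _
    exact h1
  -- the Frobenius automorphism of the residue field
  let _ : Field (B ⧸ Q) := Ideal.Quotient.field Q
  let _ : Field (ℤ ⧸ P) := Ideal.Quotient.field P
  have hℓQ0 : ((ℓ : ℕ) : B ⧸ Q) = 0 := by
    have h1 : Ideal.Quotient.mk Q (algebraMap ℤ B (ℓ : ℤ)) = 0 := Ideal.Quotient.eq_zero_iff_mem.2 hℓQ
    simpa using h1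
  have hchar : CharP (B ⧸ Q) ℓ := (CharP.charP_iff_prime_eq_zero hℓ).2 hℓQ0
  have hexp : ExpChar (B ⧸ Q) ℓ := ExpChar.prime hℓ
  let fr : (B ⧸ Q) →ₐ[ℤ ⧸ P] (B ⧸ Q) :=
    { frobenius (B ⧸ Q) ℓ with
      commutes' := by
        intro r
        obtain ⟨n, rfl⟩ := Ideal.Quotient.mk_surjective r
        have h1 : algebraMap (ℤ ⧸ P) (B ⧸ Q) (Ideal.Quotient.mk P n) = ((n : ℤ) : B ⧸ Q) := by
          have h2 : Ideal.Quotient.mk P n = ((n : ℤ) : ℤ ⧸ P) := by simp
          rw [h2, map_intCast]
        show frobenius (B ⧸ Q) ℓ _ = _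
        rw [h1, map_intCast] }
  have hbij : Function.Bijective fr := Algebra.IsAlgebraic.algHom_bijective fr
  let fre : (B ⧸ Q) ≃ₐ[ℤ ⧸ P] (B ⧸ Q) := AlgEquiv.ofBijective fr hbij
  obtain ⟨g, hg⟩ := hsurj fre
  have hfrob : ∀ b : B, (g : G) • b - b ^ ℓ ∈ Q := by
    intro b
    have h1 : Ideal.Quotient.stabilizerHom Q P G g (Ideal.Quotient.mk Q b) =
        fre (Ideal.Quotient.mk Q b) := by rw [hg]
    rw [Ideal.Quotient.stabilizerHom_apply] at h1
    have h2 : fre (Ideal.Quotient.mk Q b) = Ideal.Quotient.mk Q (b ^ ℓ) := by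
      show frobenius (B ⧸ Q) ℓ (Ideal.Quotient.mk Q b) = _
      rw [frobenius_def, map_pow]
    exact Ideal.Quotient.eq.mp (h1.trans h2)
  -- a valuation subring dominating `B` localized at `Q`
  obtain ⟨V, hBV, hQV⟩ :=
    Ideal.image_subset_nonunits_valuationSubring (A := B.toSubring) Q hQmax.ne_top
  have hBV' : ∀ x : L, IsIntegral ℤ x → x ∈ V := fun x hx => hBV hx
  have hQV' : ∀ b : B, b ∈ Q → (b : L) ∈ V.nonunits := fun b hb => hQV ⟨b, hb, rfl⟩
  have hVQ : ∀ b : B, (b : L) ∈ V.nonunits → b ∈ Q := by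
    intro b hb
    by_contra hbQ
    obtain ⟨y, i, hi, hyi⟩ := hQmax.exists_inv hbQ
    have h1 : (y : L) * (b : L) + (i : L) = 1 := by
      have := congrArg (Subtype.val : B → L) hyi
      simpa using this
    have h2 : (1 : L) ∈ V.nonunits := by
      rw [← h1]
      exact V.nonunits.add_mem (mul_mem_nonunits V (hBV' _ y.2) hb) (hQV' i hi)
    rw [ValuationSubring.mem_nonunits_iff, map_one] at h2
    exact lt_irrefl _ h2
  have hℓV : ((ℓ : ℕ) : L) ∈ V.nonunits := by
    have h1 := hQV' _ hℓQ
    simpa using h1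
  -- `g` preserves `Q` in both directions
  have hgQ : ∀ b : B, b ∈ Q → (g : G) • b ∈ Q := by
    intro b hb
    have h1 := Q.add_mem (hfrob b) (Q.pow_mem_of_mem hb ℓ hℓ.pos)
    simpa using h1
  have hgQ' : ∀ b : B, (g : G) • b ∈ Q → b ∈ Q := by
    intro b hb
    have h1 := Q.sub_mem hb (hfrob b)
    have h2 : b ^ ℓ ∈ Q := by simpa using h1
    exact hQmax.isPrime.mem_of_pow_mem ℓ h2
  have halg : ∀ x : L, IsAlgebraic ℤ x := fun x =>
    (IsFractionRing.isAlgebraic_iff ℤ ℚ L).2 (Algebra.IsAlgebraic.isAlgebraic x)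
  -- automorphisms preserving `Q` preserve `V`
  have key : ∀ τ : G, (∀ b : B, b ∈ Q → τ • b ∈ Q) → (∀ b : B, τ • b ∈ Q → b ∈ Q) →
      ∀ x : L, x ∈ V → τ x ∈ V := by
    intro τ h1 h2 x hx
    obtain ⟨s, hs, hsV, hxs⟩ := exists_denominator V ℓ hℓ hℓV x hx (halg x)
    have hτs : V.valuation (τ s) = 1 := by
      refine valuation_eq_one_of_mem V (hBV' _ (hs.map τ)) ?_
      intro hmem
      exact hsV (hQV' ⟨s, hs⟩ (h2 ⟨s, hs⟩ (hVQ (τ • (⟨s, hs⟩ : B)) hmem)))
    have h3 : V.valuation (τ x) = V.valuation (τ (x * s)) := by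
      rw [map_mul, map_mul, hτs, mul_one]
    rw [← V.valuation_le_one_iff, h3, V.valuation_le_one_iff]
    exact hBV' _ (hxs.map τ)
  have hσ : (g : G) ∈ V.decompositionSubgroup ℚ := by
    rw [MulAction.mem_stabilizer_iff]
    apply SetLike.ext
    intro x
    rw [ValuationSubring.mem_pointwise_smul_iff_inv_smul_mem]
    constructor
    · intro hx
      have h1 := key (g : G) hgQ hgQ' _ hx
      have h2 : (g : G) ((g : G)⁻¹ • x) = x := by
        show (g : G) • ((g : G)⁻¹ • x) = x
        exact smul_inv_smul _ _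
      rwa [h2] at h1
    · intro hx
      refine key (g : G)⁻¹ ?_ ?_ x hx
      · intro b hb
        apply hgQ'
        rw [smul_inv_smul]
        exact hb
      · intro b hb
        have h1 := hgQ _ hb
        rwa [smul_inv_smul] at h1
  refine ⟨V, (g : G), hℓV, hσ, ?_⟩
  intro x
  obtain ⟨x, rfl⟩ := IsLocalRing.residue_surjective x
  rw [← IsLocalRing.ResidueField.residue_smul, ← map_pow, ← sub_eq_zero, ← map_sub,
    IsLocalRing.residue_eq_zero_iff, V.valuation_lt_one_iff]
  show V.valuation ((g : G) (x : L) - (x : L) ^ ℓ) < 1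
  obtain ⟨s, hs, hsV, hxs⟩ := exists_denominator V ℓ hℓ hℓV (x : L) x.2 (halg _)
  have hs1 : V.valuation s = 1 := valuation_eq_one_of_mem V (hBV' _ hs) hsV
  have hgs : V.valuation ((g : G) s) = 1 := by
    refine valuation_eq_one_of_mem V (hBV' _ (hs.map (g : G))) ?_
    intro hmem
    exact hsV (hQV' ⟨s, hs⟩ (hgQ' ⟨s, hs⟩ (hVQ ((g : G) • (⟨s, hs⟩ : B)) hmem)))
  have h1 : V.valuation ((g : G) (x : L) - (x : L) ^ ℓ) =
      V.valuation (((g : G) (x : L) - (x : L) ^ ℓ) * ((g : G) s * s ^ ℓ)) := by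
    rw [map_mul, map_mul, map_pow, hgs, hs1, one_pow, mul_one, mul_one]
  have h2 : ((g : G) (x : L) - (x : L) ^ ℓ) * ((g : G) s * s ^ ℓ) =
      s ^ ℓ * ((g : G) ((x : L) * s) - ((x : L) * s) ^ ℓ) -
        ((x : L) * s) ^ ℓ * ((g : G) s - s ^ ℓ) := by
    rw [map_mul]
    ring
  rw [h1, h2, ← ValuationSubring.mem_nonunits_iff]
  refine V.nonunits.sub_mem (mul_mem_nonunits V (pow_mem (hBV' _ hs) ℓ) ?_)
    (mul_mem_nonunits V (pow_mem (hBV' _ hxs) ℓ) ?_)
  · exact hQV' _ (hfrob ⟨(x : L) * s, hxs⟩)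
  · exact hQV' _ (hfrob ⟨s, hs⟩)

end Fermat.Agent.S54
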